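/-
PROJECT T (S56), Base/Pairing, LOCAL (N3), part 1 (helper22): the Kummer layer `K((Kˣ)^{1/p})` of an
infinite Galois extension `Ω/K₀`, in the language of fixing subgroups.

`K₀ ⊂ K ⊂ Ω`, `K/K₀` finite normal, `μ_p ⊂ K`, every element of `K` a `p`-th power in `Ω`,
`[Kˣ : Kˣᵖ]` finite.  `kumL p K := K((Kˣ)^{1/p}) ⊂ Ω`, as an intermediate field of `Ω/K₀`:

* `normal_kumL`, `finiteDimensional_kumL`, `le_kumL`;
* with `U₁ := Gal(Ω/K)`, `U' := Gal(Ω/kumL)`: commutators and `p`-th powers of `U₁` lie in `U'`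
  (`comm_mem_fixingSubgroup_kumL`, `pow_mem_fixingSubgroup_kumL`), and
  `[U₁ : U'] = [Kˣ : Kˣᵖ]` (`relIndex_fixingSubgroup_kumL`);
* the layer group `U₁/U' ≤ Gal(Ω/K₀)/U'` is commutative of exponent `p` and order `[Kˣ : Kˣᵖ]`
  (`layer_mul_comm`, `layer_pow_eq_one`, `card_layer`).
-/
import Mathlib
import Fermat.Agent.CFT.Kummer.KummerField

set_option autoImplicit false

noncomputable section

namespace Fermat.Agent.S56.Base.Pairing.LocalN3.KummerLayer

open IntermediateField Fermat.Agent.CFT.Kummer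

variable {K₀ Ω : Type*} [Field K₀] [Field Ω] [Algebra K₀ Ω]

/-- An automorphism fixing a set pointwise fixes the field it generates. -/
theorem mem_fixingSubgroup_adjoin (S : Set Ω) (g : Ω ≃ₐ[K₀] Ω) (h : ∀ x ∈ S, g x = x) :
    g ∈ (adjoin K₀ S).fixingSubgroup := by
  have hle : adjoin K₀ S ≤ fixedField (Subgroup.zpowers g) := by
    rw [adjoin_le_iff]
    intro x hx
    rintro ⟨h', hh⟩
    obtain ⟨n, rfl⟩ := Subgroup.mem_zpowers_iff.1 hh
    change (g ^ n) x = x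
    have hfix : g ∈ MulAction.stabilizer (Ω ≃ₐ[K₀] Ω) x := h x hx
    exact Subgroup.zpow_mem _ hfix n
  exact (le_iff_le (Subgroup.zpowers g) _).1 hle (Subgroup.mem_zpowers g)

variable (p : ℕ) [NeZero p] (K : IntermediateField K₀ Ω)

/-- The field `K((Kˣ)^{1/p})` inside `Ω`, as an intermediate field of `Ω/K₀`. -/
def kumL : IntermediateField K₀ Ω :=
  (kummerField p (⊤ : Subgroup (↥K)ˣ) Ω).restrictScalars K₀

/-- The `p`-th roots in `Ω` of the nonzero elements of `K`. -/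
def rad : Set Ω := {x | x ≠ 0 ∧ x ^ p ∈ K}

variable {p K}

theorem radSet_top_eq : radSet p (⊤ : Subgroup (↥K)ˣ) Ω = rad p K := by
  ext x
  constructor
  · rintro ⟨a, -, hx⟩
    refine ⟨fun h0 => ?_, ?_⟩
    · rw [h0, zero_pow (NeZero.ne p)] at hx
      have : (((a : (↥K)ˣ) : ↥K) : Ω) = 0 := hx.symm
      exact a.ne_zero (Subtype.ext this)
    · have : x ^ p = (((a : (↥K)ˣ) : ↥K) : Ω) := hx
      rw [this]
      exact ((a : (↥K)ˣ) : ↥K).2
  · rintro ⟨h0, hx⟩
    have hne : (⟨x ^ p, hx⟩ : ↥K) ≠ 0 := fun h => by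
      have := congrArg (fun y : ↥K => (y : Ω)) h
      exact pow_ne_zero p h0 this
    exact ⟨Units.mk0 ⟨x ^ p, hx⟩ hne, Subgroup.mem_top _, rfl⟩

theorem kumL_eq_adjoin : kumL p K = adjoin K₀ ((K : Set Ω) ∪ rad p K) := by
  rw [kumL, kummerField, restrictScalars_adjoin, radSet_top_eq]

theorem le_kumL : K ≤ kumL p K := by
  rw [kumL_eq_adjoin]
  intro x hx
  exact subset_adjoin K₀ _ (Or.inl hx)

theorem rad_subset_kumL : rad p K ⊆ (kumL p K : Set Ω) := by
  rw [kumL_eq_adjoin]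
  intro x hx
  exact subset_adjoin K₀ _ (Or.inr hx)

theorem fixingSubgroup_kumL_le : (kumL p K).fixingSubgroup ≤ K.fixingSubgroup :=
  IntermediateField.fixingSubgroup_antitone le_kumL

theorem mem_fixingSubgroup_kumL (g : Ω ≃ₐ[K₀] Ω) (hK : ∀ x ∈ K, g x = x)
    (hR : ∀ x ∈ rad p K, g x = x) : g ∈ (kumL p K).fixingSubgroup := by
  rw [kumL_eq_adjoin]
  refine mem_fixingSubgroup_adjoin _ g ?_
  rintro x (hx | hx)
  · exact hK x hx
  · exact hR x hx

/-- `kumL p K` is normal over `K₀` when `K` is. -/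
theorem normal_kumL [Normal K₀ Ω] [hK : Normal K₀ K] : Normal K₀ (kumL p K) := by
  rw [normal_iff_forall_map_le']
  intro σ
  have hKσ := normal_iff_forall_map_le'.1 hK σ
  rw [kumL_eq_adjoin, adjoin_map, adjoin_le_iff]
  rintro _ ⟨x, hx | hx, rfl⟩
  · exact subset_adjoin K₀ _ (Or.inl (hKσ ⟨x, hx, rfl⟩))
  · refine subset_adjoin K₀ _ (Or.inr ⟨?_, ?_⟩)
    · exact (map_ne_zero _).2 hx.1
    · change (σ x) ^ p ∈ K
      rw [← map_pow]
      exact hKσ ⟨x ^ p, hx.2, rfl⟩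

section Finite

variable (hfin : ((powMonoidHom p : (↥K)ˣ →* (↥K)ˣ).range).index ≠ 0)

include hfin in
theorem finiteDimensional_kummerField_top :
    FiniteDimensional ↥K (kummerField p (⊤ : Subgroup (↥K)ˣ) Ω) :=
  finiteDimensional_kummerField (Ω := Ω) (by rwa [Subgroup.relIndex_top_right])

include hfin in
/-- `kumL p K` is finite over `K₀` when `K` is and `[Kˣ : Kˣᵖ]` is finite. -/
theorem finiteDimensional_kumL [FiniteDimensional K₀ K] : FiniteDimensional K₀ (kumL p K) := by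
  have := finiteDimensional_kummerField_top (Ω := Ω) hfin
  exact FiniteDimensional.trans K₀ ↥K ↥(kummerField p (⊤ : Subgroup (↥K)ˣ) Ω)

end Finite

/-! ### The group shadow -/

section Shadow

variable (hζ : (primitiveRoots p ↥K).Nonempty)

include hζ in
/-- `p`-th roots of unity of `Ω` lie in `K ∋ μ_p`. -/
theorem root_of_unity_mem (ξ : Ω) (hξ : ξ ^ p = 1) : ξ ∈ K := by
  obtain ⟨ζ, hζ'⟩ := hζ
  have hζ1 : IsPrimitiveRoot ζ p := (mem_primitiveRoots (Nat.pos_of_ne_zero (NeZero.ne p))).mp hζ'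
  have h2 : IsPrimitiveRoot (algebraMap ↥K Ω ζ) p :=
    hζ1.map_of_injective (algebraMap ↥K Ω).injective
  obtain ⟨i, -, hi⟩ := h2.eq_pow_of_pow_eq_one hξ
  rw [← hi, ← map_pow]
  exact (ζ ^ i).2

include hζ in
/-- An element of `Gal(Ω/K)` multiplies each radical by a `p`-th root of unity of `K`. -/
theorem exists_root_mul (σ : Ω ≃ₐ[K₀] Ω) (hσ : σ ∈ K.fixingSubgroup) (x : Ω) (hx : x ∈ rad p K) :
    ∃ ξ ∈ K, ξ ^ p = 1 ∧ σ x = ξ * x := by
  have hσK := (IntermediateField.mem_fixingSubgroup_iff K σ).1 hσ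
  have h1 : (σ x / x) ^ p = 1 := by
    rw [div_pow, ← map_pow, hσK _ hx.2]
    exact div_self (pow_ne_zero p hx.1)
  exact ⟨σ x / x, root_of_unity_mem hζ _ h1, h1, (div_mul_cancel₀ _ hx.1).symm⟩

include hζ in
/-- Commutators of `Gal(Ω/K)` fix `kumL p K`. -/
theorem comm_mem_fixingSubgroup_kumL (σ τ : Ω ≃ₐ[K₀] Ω) (hσ : σ ∈ K.fixingSubgroup)
    (hτ : τ ∈ K.fixingSubgroup) : (τ * σ)⁻¹ * (σ * τ) ∈ (kumL p K).fixingSubgroup := by
  have hσK := (IntermediateField.mem_fixingSubgroup_iff K σ).1 hσ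
  have hτK := (IntermediateField.mem_fixingSubgroup_iff K τ).1 hτ
  have key : ∀ x : Ω, (σ * τ) x = (τ * σ) x → ((τ * σ)⁻¹ * (σ * τ)) x = x := by
    intro x hx
    change (τ * σ)⁻¹ ((σ * τ) x) = x
    rw [hx]
    exact AlgEquiv.symm_apply_apply (τ * σ) x
  refine mem_fixingSubgroup_kumL _ (fun x hx => key x ?_) (fun x hx => key x ?_)
  · change σ (τ x) = τ (σ x)
    rw [hτK x hx, hσK x hx, hτK x hx]
  · obtain ⟨a, haK, -, ha⟩ := exists_root_mul hζ σ hσ x hx
    obtain ⟨b, hbK, -, hb⟩ := exists_root_mul hζ τ hτ x hx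
    change σ (τ x) = τ (σ x)
    rw [hb, ha, map_mul, map_mul, hσK b hbK, hτK a haK, ha, hb]
    ring

include hζ in
/-- `p`-th powers of `Gal(Ω/K)` fix `kumL p K`. -/
theorem pow_mem_fixingSubgroup_kumL (σ : Ω ≃ₐ[K₀] Ω) (hσ : σ ∈ K.fixingSubgroup) :
    σ ^ p ∈ (kumL p K).fixingSubgroup := by
  have hσK := (IntermediateField.mem_fixingSubgroup_iff K σ).1 hσ
  refine mem_fixingSubgroup_kumL _ (fun x hx => ?_) (fun x hx => ?_)
  · have : σ ^ p ∈ K.fixingSubgroup := Subgroup.pow_mem _ hσ p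
    exact (IntermediateField.mem_fixingSubgroup_iff K _).1 this x hx
  · obtain ⟨a, haK, hap, ha⟩ := exists_root_mul hζ σ hσ x hx
    have key : ∀ n : ℕ, (σ ^ n) x = a ^ n * x := by
      intro n
      induction n with
      | zero => simp
      | succ n ih =>
        rw [pow_succ']
        change σ ((σ ^ n) x) = _
        rw [ih, map_mul, map_pow, hσK a haK, ha]
        ring
    rw [key, hap, one_mul]

end Shadow

/-! ### The degree -/

section Degree

variable [IsGalois K₀ Ω] [FiniteDimensional K₀ K]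

/-- `[Gal(Ω/K) : Gal(Ω/kumL)] = [K((Kˣ)^{1/p}) : K]`. -/
theorem relIndex_fixingSubgroup_kumL_eq_finrank :
    (kumL p K).fixingSubgroup.relIndex K.fixingSubgroup =
      Module.finrank ↥K (kummerField p (⊤ : Subgroup (↥K)ˣ) Ω) := by
  have h1 : (kumL p K).fixingSubgroup.index = Module.finrank K₀ ↥(kumL p K) :=
    (finrank_eq_fixingSubgroup_index Ω (kumL p K)).symm
  have h2 : K.fixingSubgroup.index = Module.finrank K₀ ↥K :=
    (finrank_eq_fixingSubgroup_index Ω K).symm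
  have h3 := Subgroup.relIndex_mul_index (fixingSubgroup_kumL_le (p := p) (K := K))
  have h4 : Module.finrank K₀ ↥(kumL p K) =
      Module.finrank K₀ ↥K * Module.finrank ↥K (kummerField p (⊤ : Subgroup (↥K)ˣ) Ω) :=
    (Module.finrank_mul_finrank K₀ ↥K ↥(kummerField p (⊤ : Subgroup (↥K)ˣ) Ω)).symm
  rw [h1, h2, h4, mul_comm] at h3
  exact Nat.eq_of_mul_eq_mul_left Module.finrank_pos h3

variable (hζ : (primitiveRoots p ↥K).Nonempty)
  (hfin : ((powMonoidHom p : (↥K)ˣ →* (↥K)ˣ).range).index ≠ 0)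
  (hroot : ∀ x : Ω, ∃ y : Ω, y ^ p = x)

include hζ hfin hroot in
/-- **`[Gal(Ω/K) : Gal(Ω/K((Kˣ)^{1/p}))] = [Kˣ : Kˣᵖ]`.** -/
theorem relIndex_fixingSubgroup_kumL :
    (kumL p K).fixingSubgroup.relIndex K.fixingSubgroup =
      ((powMonoidHom p : (↥K)ˣ →* (↥K)ˣ).range).index := by
  rw [relIndex_fixingSubgroup_kumL_eq_finrank,
    finrank_kummerField (Ω := Ω) hζ le_top (by rwa [Subgroup.relIndex_top_right])
      (fun a _ => hroot _), Subgroup.relIndex_top_right]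

end Degree

/-! ### The layer group -/

section Layer

variable {G : Type*} [Group G]

/-- The layer group `U₀/U'` is commutative if commutators of `U₀` lie in `U'`. -/
theorem map_mk'_comm (U₀ U' : Subgroup G) [U'.Normal]
    (h : ∀ σ ∈ U₀, ∀ τ ∈ U₀, (τ * σ)⁻¹ * (σ * τ) ∈ U')
    (a b : U₀.map (QuotientGroup.mk' U')) : a * b = b * a := by
  obtain ⟨_, σ, hσ, rfl⟩ := a
  obtain ⟨_, τ, hτ, rfl⟩ := b
  apply Subtype.ext
  change QuotientGroup.mk' U' σ * QuotientGroup.mk' U' τ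
    = QuotientGroup.mk' U' τ * QuotientGroup.mk' U' σ
  rw [← map_mul, ← map_mul, eq_comm]
  exact (QuotientGroup.eq).mpr (h σ hσ τ hτ)

theorem map_mk'_pow (U₀ U' : Subgroup G) [U'.Normal] (n : ℕ) (h : ∀ σ ∈ U₀, σ ^ n ∈ U')
    (a : U₀.map (QuotientGroup.mk' U')) : a ^ n = 1 := by
  obtain ⟨_, σ, hσ, rfl⟩ := a
  apply Subtype.ext
  change (QuotientGroup.mk' U' σ) ^ n = 1
  rw [← map_pow]
  exact (QuotientGroup.eq_one_iff _).mpr (h σ hσ)

theorem card_map_mk' (U₀ U' : Subgroup G) [U'.Normal] :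
    Nat.card (U₀.map (QuotientGroup.mk' U')) = U'.relIndex U₀ := by
  rw [← Subgroup.relIndex_ker, QuotientGroup.ker_mk']

end Layer

section LayerKum

variable [hN : (kumL p K).fixingSubgroup.Normal] (hζ : (primitiveRoots p ↥K).Nonempty)

include hζ in
theorem layer_mul_comm
    (a b : K.fixingSubgroup.map (QuotientGroup.mk' (kumL p K).fixingSubgroup)) : a * b = b * a :=
  map_mk'_comm _ _ (fun σ hσ τ hτ => comm_mem_fixingSubgroup_kumL hζ σ τ hσ hτ) a b

include hζ in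
theorem layer_pow_eq_one
    (a : K.fixingSubgroup.map (QuotientGroup.mk' (kumL p K).fixingSubgroup)) : a ^ p = 1 :=
  map_mk'_pow _ _ p (fun σ hσ => pow_mem_fixingSubgroup_kumL hζ σ hσ) a

include hζ in
theorem card_layer [IsGalois K₀ Ω] [FiniteDimensional K₀ K]
    (hfin : ((powMonoidHom p : (↥K)ˣ →* (↥K)ˣ).range).index ≠ 0)
    (hroot : ∀ x : Ω, ∃ y : Ω, y ^ p = x) :
    Nat.card (K.fixingSubgroup.map (QuotientGroup.mk' (kumL p K).fixingSubgroup)) =
      ((powMonoidHom p : (↥K)ˣ →* (↥K)ˣ).range).index := by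
  rw [card_map_mk', relIndex_fixingSubgroup_kumL hζ hfin hroot]

end LayerKum

end Fermat.Agent.S56.Base.Pairing.LocalN3.KummerLayer
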