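/-
PROJECT T (S56), Base/Pairing, LOCAL (N3), part 4 (helper22): `p` DIVIDES RELATIVE INDICES
COFINALLY in the family of levels of the local Galois group (the hypothesis `hdiv` of helper10's
`Base/LocalH2` and `Base/TNLC`, for the FULL prelude family `levelsOf (localGaloisToGlobal q)`).

Below every level `V₀` there is a level `V ≤ V₀` with `p ∣ [V₀ : V]`: `V₀ ⊇ G_K` with `K ∋ μ_p`
finite normal over `ℚ_q` (`LocalN3.exists_level_field`), `L := K((Kˣ)^{1/p})`, `V ≤ G_L` a level of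
the prelude's family; `p ∣ [Kˣ : Kˣᵖ] = [G_K : G_L] ∣ [G_K : V] ∣ [V₀ : V]`.

* `exists_level_dvd_relIndex_levelsOf` : generic prime `q : ℕ`;
* `exists_level_dvd_relIndex`          : `q : Nat.Primes` (helper10's `card_H2_hom_eq` shape);
* `exists_level_dvd_relIndex_Uv`       : `q : ↥S`, the family `Uv S q` (`card_H2_hom_Dloc_eq` shape).
-/
import Fermat.Agent.S56.Base.Pairing.LocalN3

set_option autoImplicit false

noncomputable section

namespace Fermat.Agent.S56.Base.Pairing.LocalN3.Div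

open Fermat.Agent.CFT.LC Fermat.Agent.CFT.LocalBridge Fermat.Agent.CFT.Bridge
  Fermat.Agent.CFT.D.Reduce Fermat.Agent.CFT.Idele ExtCitation
  Fermat.Agent.S56.Base.Pairing.LocalN3.KummerLayer

/-- `p` divides relative indices cofinally in the prelude's family of levels of `LocGal q`. -/
theorem exists_level_dvd_relIndex_levelsOf (q : ℕ) [Fact q.Prime] (p : ℕ) [Fact p.Prime] :
    ∀ V₀ ∈ (levelsOf (localGaloisToGlobal q)).sets,
      ∃ V ∈ (levelsOf (localGaloisToGlobal q)).sets, V ≤ V₀ ∧ p ∣ V.relIndex V₀ := by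
  intro V₀ hV₀
  obtain ⟨E₀, hE₀fd, hE₀n, rfl⟩ := levelsOf_sets_subset q hV₀
  obtain ⟨K, hKfd, hKn, hle, hζ⟩ := exists_level_field q p E₀
  have hp0 : p ≠ 0 := (Fact.out : p.Prime).ne_zero
  have hLmem := kumL_mem_levelsLoc q p K
  obtain ⟨V, hV, hVle⟩ := levelsOf_refines_levelsLoc q _ hLmem
  have hKE : K.fixingSubgroup ≤ E₀.fixingSubgroup := IntermediateField.fixingSubgroup_antitone hle
  have hLK : (kumL p K).fixingSubgroup ≤ K.fixingSubgroup := fixingSubgroup_kumL_le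
  have hfin := index_range_pow_ne_zero q ↥K hp0
  refine ⟨V, hV, hVle.trans (hLK.trans hKE), ?_⟩
  have h1 : p ∣ (kumL p K).fixingSubgroup.relIndex K.fixingSubgroup := by
    rw [relIndex_fixingSubgroup_kumL hζ hfin (exists_pow_eq_padicAlgCl q p)]
    exact dvd_index_range_pow q ↥K hp0
  have h2 : (kumL p K).fixingSubgroup.relIndex K.fixingSubgroup ∣ V.relIndex K.fixingSubgroup :=
    Subgroup.relIndex_dvd_of_le_left _ hVle
  have h3 : V.relIndex K.fixingSubgroup ∣ V.relIndex E₀.fixingSubgroup :=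
    Dvd.intro _ (Subgroup.relIndex_mul_relIndex V K.fixingSubgroup E₀.fixingSubgroup
      (hVle.trans hLK) hKE)
  exact h1.trans (h2.trans h3)

/-- The same for `q : Nat.Primes` (the hypothesis `hdiv` of `LocalH2.card_H2_hom_eq`). -/
theorem exists_level_dvd_relIndex (p : ℕ) [Fact p.Prime] (q : Nat.Primes) :
    ∀ V₀ ∈ (levelsOf (localGaloisToGlobal (q : ℕ))).sets,
      ∃ V ∈ (levelsOf (localGaloisToGlobal (q : ℕ))).sets, V ≤ V₀ ∧ p ∣ V.relIndex V₀ :=
  exists_level_dvd_relIndex_levelsOf (q : ℕ) p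

/-- The same for the Datum's local family `Uv S q` (the hypothesis `hdiv` of
`LocalH2.card_H2_hom_Dloc_eq`). -/
theorem exists_level_dvd_relIndex_Uv (p : ℕ) [Fact p.Prime] (S : Finset Nat.Primes) (q : ↥S) :
    ∀ V₀ ∈ (Uv S q).sets, ∃ V ∈ (Uv S q).sets, V ≤ V₀ ∧ p ∣ V.relIndex V₀ :=
  exists_level_dvd_relIndex_levelsOf (q.1 : ℕ) p

end Fermat.Agent.S56.Base.Pairing.LocalN3.Div
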