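/-
PROJECT T (S56), Base/Pairing, LOCAL (N3), part 3 (helper22): the PER-PRIME literal of helper23
(#4090 (2)): the exponent-`p` existence theorem for the tensor model
`Q̄_qˣ ⊗ ℤ_(p) = tensorRep (unitsQ q)` of the local module, on the prelude's family of levels
`levelsOf (localGaloisToGlobal q)` of `LocGal q`, for `q : Nat.Primes` (no `S`).  It is the instance
`Y := tensorRep (unitsQ q)` of `LocalN3.n3_cofinal_levelsOf`.
-/
import Fermat.Agent.S56.Base.Pairing.LocalN3

set_option autoImplicit false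

noncomputable section

namespace Fermat.Agent.S56.Base.Pairing.LocalN3.PerPrime

open Fermat.Agent.CFT.LC Fermat.Agent.CFT.A7.BaseChange Fermat.Agent.CFT.LocalBridge
  Fermat.Agent.CFT.Bridge Fermat.Agent.CFT.D.Realize Fermat.Agent.CFT.D.ZpModel
  Fermat.Agent.CFT.D.DatumBuild Fermat.Agent.CFT.Idele

/-- **LOCAL (N3), per prime**: below every level `U₀` of `LocGal q` there is a level `U'` of index
divisible by `p` with `Nm_{U₀/U'} D_q^{U'} ⊆ p • D_q^{U₀}`, `D_q = Q̄_qˣ ⊗ ℤ_(p)`. -/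
theorem n3_local (p : ℕ) [Fact p.Prime] (q : Nat.Primes) :
    ∀ U₀ ∈ (levelsOf (localGaloisToGlobal (q : ℕ))).sets,
      ∃ U' : Subgroup (LocGal (q : ℕ)), ∃ _ : U'.Normal,
        U' ∈ (levelsOf (localGaloisToGlobal (q : ℕ))).sets ∧ U' ≤ U₀ ∧
          ((p : ℕ) : Zp p) ∣ ((Nat.card (LocGal (q : ℕ) ⧸ U') : ℕ) : Zp p) ∧
          ∀ [Fintype (layerSub U₀ U')],
            N3 (tensorRep (k := Zp p) (unitsQ q) : Rep.{0} (Zp p) (LocGal (q : ℕ)))
              ((p : ℕ) : Zp p) U₀ U' :=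
  n3_cofinal_levelsOf (q : ℕ) p (isLocRep_tensorRep (primeTo p) (unitsQ q))

end Fermat.Agent.S56.Base.Pairing.LocalN3.PerPrime
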